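import Fermat.Agent.S59.H139.GubFibre
import Fermat.Agent.S59.LoSqC.H550.Ord12

/-!
# S59 / cell (C) LO-SQ / W-COUNT — leaf GUB4 CLOSED (helper139)

`gub4 : H807.Gub4Statement P E M q w` (VERBATIM, unconditional):
for `4 ∣ M`, `5 ≤ q`, `12 · #nodes ≤ (q - 1) ψ(M)` at level `M q`.

`gub4 = GubFibre.gub4_of_ord12 (H550.ord12_h550)`:
ORD12 (helper550: `D ∈ p₂ + n ^ 12` at every node) + the fibre bound on `C₀` (this seat).
-/

set_option autoImplicit false

noncomputable section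

namespace Fermat.Agent.S59.H139.Gub4

open ModularCurve Fermat.Agent.A2.Mod Fermat.Agent.S36.H803

variable (P : ValuationSubring Qb) (E : IntermediateField ℚ Qb) (M q : ℕ) [NeZero M] [NeZero q]
  (w : RE P E)

/-- **Leaf GUB4**, VERBATIM, unconditional. -/
theorem gub4 : Fermat.Agent.S59.H807.Gub4Statement P E M q w :=
  Fermat.Agent.S59.H139.GubFibre.gub4_of_ord12 P E M q w
    (Fermat.Agent.S59.LoSqC.H550.ord12_h550 P E M q w)

/-- GUB4 unfolded: the node count. -/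
theorem nodes_le (hyp : R3Hyp P E M q w) (h4 : 4 ∣ M) (h5 : 5 ≤ q)
    (p₁ p₂ : Ideal (Bfin P E M q)) (hcomp : IsComponents P E M q w p₁ p₂)
    (s : Finset (Ideal (Bfin P E M q))) (hs : ∀ n ∈ s, IsNode P E M q p₁ p₂ n) :
    12 * s.card ≤ (q - 1) * dedekindPsi M :=
  gub4 P E M q w hyp h4 h5 p₁ p₂ hcomp s hs

/-- The nodes of the finite chart form a FINITE set, and `12 · #nodes ≤ (q - 1) ψ(M)`. -/
theorem exists_finset_nodes (hyp : R3Hyp P E M q w) (h4 : 4 ∣ M) (h5 : 5 ≤ q)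
    (p₁ p₂ : Ideal (Bfin P E M q)) (hcomp : IsComponents P E M q w p₁ p₂) :
    ∃ s : Finset (Ideal (Bfin P E M q)), (∀ n, n ∈ s ↔ IsNode P E M q p₁ p₂ n) ∧
      12 * s.card ≤ (q - 1) * dedekindPsi M := by
  classical
  have hfin : {n : Ideal (Bfin P E M q) | IsNode P E M q p₁ p₂ n}.Finite := by
    by_contra hinf
    obtain ⟨t, ht, hcard⟩ :=
      Set.Infinite.exists_subset_card_eq hinf ((q - 1) * dedekindPsi M + 1)
    have := nodes_le P E M q w hyp h4 h5 p₁ p₂ hcomp t (fun n hn => ht hn)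
    rw [hcard] at this
    omega
  refine ⟨hfin.toFinset, fun n => ?_, ?_⟩
  · rw [Set.Finite.mem_toFinset]
    rfl
  · exact nodes_le P E M q w hyp h4 h5 p₁ p₂ hcomp _
      (fun n hn => (Set.Finite.mem_toFinset hfin).mp hn)

end Fermat.Agent.S59.H139.Gub4

end
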