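import Mathlib

/-!
# S59 / cell (C) LO-SQ / W-COUNT / GUB — the abstract FIBRE bound (helper139), Mathlib only

`A` a Dedekind domain which is an algebra over a field `k`, `T ∈ A` transcendental over `k`, any
`d + 1` elements of `A` linearly dependent over `k[T]`, `h ∈ k[X]` nonzero, `s` a finite set of
maximal ideals of `A` with `h(T) ∈ n ^ e` for `n ∈ s`.  Then `#s * e ≤ d * deg h`.

* `indep_step`, `indep_mul_pow`, `indep_prod` : a chain of ideals gives `k`-independent elements
  modulo the last ideal of the chain (lower bound);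
* `le_of_indep` : at most `d * deg h` elements of `A` are `k`-independent modulo `h(T)` (upper
  bound; finitely generated torsion-free modules over the principal ideal domain `k[X]` are free);
* `card_mul_le_core` : the bound.
-/

set_option autoImplicit false
set_option linter.unusedSectionVars false
set_option linter.overlappingInstances false
set_option linter.style.haveILetI false

noncomputable section

namespace Fermat.Agent.S59.H139.GubCore

open Polynomial

/-- There are `N` elements of `A` no nontrivial `k`-combination of which lies in `J`. -/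
def IndepModIdeal (k : Type*) {A : Type*} [Field k] [CommRing A] [Algebra k A]
    (J : Ideal A) (N : ℕ) : Prop :=
  ∃ x : Fin N → A, ∀ c : Fin N → k, (∑ t, algebraMap k A (c t) * x t) ∈ J → c = 0

section Lower

variable {k A : Type*} [Field k] [CommRing A] [Algebra k A]

theorem indep_zero (J : Ideal A) : IndepModIdeal k J 0 :=
  ⟨Fin.elim0, fun _ _ => funext fun t => t.elim0⟩

theorem indep_step_of_lt {I I' : Ideal A} (hle : I' < I) {N : ℕ}
    (h : IndepModIdeal k I N) : IndepModIdeal k I' (N + 1) := by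
  obtain ⟨x, hx⟩ := h
  obtain ⟨y, hyI, hyn⟩ := SetLike.exists_of_lt hle
  refine ⟨Fin.snoc x y, fun c hc => ?_⟩
  rw [Fin.sum_univ_castSucc] at hc
  simp only [Fin.snoc_castSucc, Fin.snoc_last] at hc
  have h1 : (∑ t : Fin N, algebraMap k A (c t.castSucc) * x t) ∈ I :=
    (I.add_mem_iff_left (I.mul_mem_left _ hyI)).mp (hle.le hc)
  have hc0 := hx (fun t => c t.castSucc) h1
  have hc0' : ∀ t : Fin N, c t.castSucc = 0 := fun t => congrFun hc0 t
  have h2 : algebraMap k A (c (Fin.last N)) * y ∈ I' := by
    have hz : (∑ t : Fin N, algebraMap k A (c t.castSucc) * x t) = 0 :=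
      Finset.sum_eq_zero fun t _ => by rw [hc0' t, map_zero, zero_mul]
    rwa [hz, zero_add] at hc
  have hlast : c (Fin.last N) = 0 := by
    by_contra hne
    apply hyn
    have : y = algebraMap k A (c (Fin.last N))⁻¹ * (algebraMap k A (c (Fin.last N)) * y) := by
      rw [← mul_assoc, ← map_mul, inv_mul_cancel₀ hne, map_one, one_mul]
    rw [this]
    exact I'.mul_mem_left _ h2
  funext t
  refine Fin.lastCases ?_ (fun t => ?_) t
  · exact hlast
  · exact hc0' t

end Lower

section Dedekind

variable {k A : Type*} [Field k] [CommRing A] [IsDomain A] [IsDedekindDomain A] [Algebra k A]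

theorem indep_step {I n : Ideal A} (hI : I ≠ ⊥) (hn : n ≠ ⊤) {N : ℕ}
    (h : IndepModIdeal k I N) : IndepModIdeal k (I * n) (N + 1) :=
  indep_step_of_lt (Ideal.dvdNotUnit_iff_lt.mp ⟨hI, n, mt Ideal.isUnit_iff.mp hn, rfl⟩) h

theorem indep_mul_pow {I n : Ideal A} (hI : I ≠ ⊥) (hn0 : n ≠ ⊥) (hn : n ≠ ⊤) {N : ℕ}
    (h : IndepModIdeal k I N) (e : ℕ) : IndepModIdeal k (I * n ^ e) (N + e) := by
  induction e with
  | zero => simpa using h
  | succ e ih =>
    have hne : I * n ^ e ≠ ⊥ := mul_ne_zero hI (pow_ne_zero e hn0)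
    have := indep_step (k := k) hne hn ih
    rwa [mul_assoc, ← pow_succ, add_assoc] at this

theorem indep_prod (e : ℕ) (s : Finset (Ideal A)) (hs : ∀ n ∈ s, n ≠ ⊥ ∧ n ≠ ⊤) :
    IndepModIdeal k (∏ n ∈ s, n ^ e) (s.card * e) := by
  classical
  induction s using Finset.induction_on with
  | empty => simpa using indep_zero (k := k) (⊤ : Ideal A)
  | insert n₀ s hn₀ ih =>
    have hs' : ∀ n ∈ s, n ≠ ⊥ ∧ n ≠ ⊤ := fun n hn => hs n (Finset.mem_insert_of_mem hn)
    have h0 := hs n₀ (Finset.mem_insert_self n₀ s)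
    have hne : (∏ n ∈ s, n ^ e) ≠ ⊥ :=
      Finset.prod_ne_zero_iff.mpr fun n hn => pow_ne_zero e (hs' n hn).1
    have := indep_mul_pow (k := k) hne h0.1 h0.2 (ih hs') e
    rw [Finset.prod_insert hn₀, Finset.card_insert_of_notMem hn₀, add_mul, one_mul, mul_comm]
    exact this

end Dedekind

section Upper

variable {k A : Type*} [Field k] [CommRing A] [IsDomain A] [Algebra k A]

/-- **Upper bound.**  If any `d + 1` elements of `A` are dependent over `k[T]`, then at most
`d * deg h` elements of `A` are `k`-independent modulo an ideal containing `h(T)`. -/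
theorem le_of_indep (T : A) (hT : Function.Injective (aeval T : k[X] → A)) (d : ℕ)
    (hrank : ∀ f : Fin (d + 1) → A, ∃ c : Fin (d + 1) → k[X],
      c ≠ 0 ∧ ∑ i, aeval T (c i) * f i = 0)
    (h : k[X]) (h0 : h ≠ 0) (J : Ideal A) (hJ : aeval T h ∈ J) (N : ℕ)
    (hind : IndepModIdeal k J N) : N ≤ d * h.natDegree := by
  classical
  obtain ⟨x, hx⟩ := hind
  by_contra hlt
  rw [not_le] at hlt
  letI algPA : Algebra k[X] A := (aeval T : k[X] →ₐ[k] A).toRingHom.toAlgebra
  have hsmul : ∀ (p : k[X]) (a : A), p • a = aeval T p * a := fun p a => rfl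
  haveI : Module.IsTorsionFree k[X] A :=
    Module.isTorsionFree_iff_algebraMap_injective.mpr hT
  let A' : Submodule k[X] A := Submodule.span k[X] (Set.range x)
  haveI : Module.Finite k[X] A' := Module.Finite.span_of_finite _ (Set.finite_range x)
  haveI : Module.Free k[X] A' := Module.free_of_finite_type_torsion_free'
  let ι := Module.Free.ChooseBasisIndex k[X] A'
  let b : Module.Basis ι k[X] A' := Module.Free.chooseBasis k[X] A'
  -- the rank is at most `d`
  have hr : Fintype.card ι ≤ d := by
    by_contra hgt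
    rw [not_le] at hgt
    have hcard : Fintype.card (Fin (d + 1)) ≤ Fintype.card ι := by
      rw [Fintype.card_fin]; exact hgt
    obtain ⟨g⟩ := Function.Embedding.nonempty_of_card_le hcard
    obtain ⟨c, hc, hsum⟩ := hrank (fun i => ((b (g i) : A') : A))
    have hli : LinearIndependent k[X] (fun i => b (g i)) :=
      b.linearIndependent.comp g g.injective
    have hzero : ∑ i, c i • b (g i) = 0 := by
      apply Subtype.ext
      rw [Submodule.coe_sum, Submodule.coe_zero, ← hsum]
      exact Finset.sum_congr rfl fun i _ => by rw [Submodule.coe_smul, hsmul]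
    have := Fintype.linearIndependent_iff.mp hli c hzero
    exact hc (funext this)
  -- coordinates of the `x t`
  have hxmem : ∀ t, x t ∈ A' := fun t => Submodule.subset_span ⟨t, rfl⟩
  let p : Fin N → ι → k[X] := fun t i => b.repr ⟨x t, hxmem t⟩ i
  have hxp : ∀ t, x t = ∑ i, aeval T (p t i) * ((b i : A') : A) := by
    intro t
    have h1 := b.sum_repr ⟨x t, hxmem t⟩
    have h2 := congrArg (Subtype.val : A' → A) h1
    rw [Submodule.coe_sum] at h2
    rw [← show ((⟨x t, hxmem t⟩ : A') : A) = x t from rfl, ← h2]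
    exact Finset.sum_congr rfl fun i _ => by rw [Submodule.coe_smul, hsmul]
  -- remainders modulo `h`, encoded by their coefficients
  let m := h.natDegree
  let v : Fin N → (ι × Fin m → k) := fun t il => (p t il.1 % h).coeff il.2
  have hfin : Module.finrank k (ι × Fin m → k) = Fintype.card ι * m := by
    rw [Module.finrank_fintype_fun_eq_card, Fintype.card_prod, Fintype.card_fin]
  have hnli : ¬ LinearIndependent k v := by
    intro hli
    have := hli.fintype_card_le_finrank
    rw [hfin, Fintype.card_fin] at this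
    have h3 : N ≤ d * h.natDegree := this.trans (Nat.mul_le_mul_right m hr)
    exact absurd h3 (not_le.mpr hlt)
  obtain ⟨c, hcsum, i₀, hci₀⟩ := Fintype.not_linearIndependent_iff.mp hnli
  -- the combination of the remainders vanishes
  have hrem : ∀ i, ∑ t, C (c t) * (p t i % h) = 0 := by
    intro i
    ext l
    rw [Polynomial.finsetSum_coeff, Polynomial.coeff_zero]
    by_cases hl : l < m
    · have := congrFun hcsum (i, ⟨l, hl⟩)
      simp only [Finset.sum_apply, Pi.smul_apply, smul_eq_mul, Pi.zero_apply, v] at this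
      rw [← this]
      exact Finset.sum_congr rfl fun t _ => by rw [Polynomial.coeff_C_mul]
    · apply Finset.sum_eq_zero
      intro t _
      rw [Polynomial.coeff_C_mul]
      have hdeg : (p t i % h).degree < h.degree := Polynomial.degree_mod_lt _ h0
      have : (p t i % h).coeff l = 0 := by
        apply Polynomial.coeff_eq_zero_of_degree_lt
        refine lt_of_lt_of_le hdeg ?_
        refine le_trans Polynomial.degree_le_natDegree ?_
        exact_mod_cast (not_lt.mp hl)
      rw [this, mul_zero]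
  have hquot : ∀ i, ∑ t, C (c t) * p t i = h * ∑ t, C (c t) * (p t i / h) := by
    intro i
    have : ∀ t, C (c t) * p t i = h * (C (c t) * (p t i / h)) + C (c t) * (p t i % h) := by
      intro t
      conv_lhs => rw [← EuclideanDomain.div_add_mod (p t i) h]
      ring
    rw [Finset.sum_congr rfl fun t _ => this t, Finset.sum_add_distrib, hrem i, add_zero,
      Finset.mul_sum]
  have hmem : (∑ t, algebraMap k A (c t) * x t) ∈ J := by
    have hcalc : (∑ t, algebraMap k A (c t) * x t) =
        aeval T h * ∑ i, aeval T (∑ t, C (c t) * (p t i / h)) * ((b i : A') : A) := by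
      calc (∑ t, algebraMap k A (c t) * x t)
          = ∑ t, ∑ i, aeval T (C (c t) * p t i) * ((b i : A') : A) := by
            refine Finset.sum_congr rfl fun t _ => ?_
            conv_lhs => rw [hxp t]
            rw [Finset.mul_sum]
            refine Finset.sum_congr rfl fun i _ => ?_
            rw [map_mul, Polynomial.aeval_C, mul_assoc]
        _ = ∑ i, aeval T (∑ t, C (c t) * p t i) * ((b i : A') : A) := by
            rw [Finset.sum_comm]
            refine Finset.sum_congr rfl fun i _ => ?_
            rw [map_sum, Finset.sum_mul]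
        _ = aeval T h * ∑ i, aeval T (∑ t, C (c t) * (p t i / h)) * ((b i : A') : A) := by
            rw [Finset.mul_sum]
            refine Finset.sum_congr rfl fun i _ => ?_
            rw [hquot i, map_mul, mul_assoc]
    rw [hcalc]
    exact J.mul_mem_right _ hJ
  exact hci₀ (congrFun (hx c hmem) i₀)

end Upper

section Main

variable {k A : Type*} [Field k] [CommRing A] [IsDomain A] [IsDedekindDomain A] [Algebra k A]

/-- **The abstract fibre bound.**  `A` a Dedekind `k`-algebra, `T ∈ A` transcendental over `k`,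
any `d + 1` elements of `A` dependent over `k[T]`, `h ≠ 0`, `h(T) ∈ n ^ e` for every `n` in the
finite set `s` of maximal ideals.  Then `#s * e ≤ d * deg h`. -/
theorem card_mul_le_core (T : A) (hT : Function.Injective (aeval T : k[X] → A)) (d : ℕ)
    (hrank : ∀ f : Fin (d + 1) → A, ∃ c : Fin (d + 1) → k[X],
      c ≠ 0 ∧ ∑ i, aeval T (c i) * f i = 0)
    (h : k[X]) (h0 : h ≠ 0) (e : ℕ) (s : Finset (Ideal A))
    (hs : ∀ n ∈ s, n.IsMaximal ∧ aeval T h ∈ n ^ e) :
    s.card * e ≤ d * h.natDegree := by
  classical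
  rcases Nat.eq_zero_or_pos e with he | he
  · subst he; simp
  have hTh : aeval T h ≠ 0 := fun hz => h0 (hT (by rw [hz, map_zero]))
  have hne : ∀ n ∈ s, n ≠ ⊥ ∧ n ≠ ⊤ := by
    intro n hn
    refine ⟨fun hbot => hTh ?_, (hs n hn).1.ne_top⟩
    have := (hs n hn).2
    rw [hbot, Ideal.bot_pow he.ne'] at this
    exact (Ideal.mem_bot).mp this
  have hind := indep_prod (k := k) e s hne
  refine le_of_indep T hT d hrank h h0 _ ?_ _ hind
  have hprod := IsDedekindDomain.inf_pow_eq_prod_of_prime s (fun n : Ideal A => n)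
    (fun _ => e) (fun n hn => Ideal.prime_of_isPrime (hne n hn).1 (hs n hn).1.isPrime)
    (fun i _ j _ hij => hij)
  rw [← hprod, Submodule.mem_finsetInf]
  exact fun n hn => (hs n hn).2

end Main

section Quot

variable {R B : Type*} [CommRing R] [CommRing B] [Algebra R B]

/-- **The fibre bound, elementwise form.**  `𝔪` a maximal ideal of `R`, `p` a prime of the
`R`-algebra `B` over `𝔪` with `B ⧸ p` Dedekind, `T ∈ B` transcendental modulo `p`, any `d + 1`
elements of `B` dependent over `R[T]` modulo `p` (with coefficients not all in `𝔪`), `h ∈ R[X]`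
nonzero modulo `𝔪` and of degree `≤ m` modulo `𝔪`.  If `s` is a finite set of maximal ideals
`n ⊇ p` with `h(T) ∈ p + n ^ e`, then `#s * e ≤ d * m`. -/
theorem card_mul_le_quot (𝔪 : Ideal R) [h𝔪 : 𝔪.IsMaximal] (p : Ideal B) [hp : p.IsPrime]
    (hle : 𝔪 ≤ p.comap (algebraMap R B)) (hded : IsDedekindDomain (B ⧸ p)) (T : B)
    (hT : ∀ a : R[X], aeval T a ∈ p → ∀ l, a.coeff l ∈ 𝔪) (d : ℕ)
    (hrank : ∀ f : Fin (d + 1) → B, ∃ c : Fin (d + 1) → R[X],
      (∃ i l, (c i).coeff l ∉ 𝔪) ∧ ∑ i, aeval T (c i) * f i ∈ p)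
    (h : R[X]) (hh : ∃ l, h.coeff l ∉ 𝔪) (m : ℕ) (hm : ∀ l, m < l → h.coeff l ∈ 𝔪)
    (e : ℕ) (s : Finset (Ideal B))
    (hs : ∀ n ∈ s, n.IsMaximal ∧ p ≤ n ∧ aeval T h ∈ p ⊔ n ^ e) :
    s.card * e ≤ d * m := by
  classical
  letI : Field (R ⧸ 𝔪) := Ideal.Quotient.field 𝔪
  let φ : R ⧸ 𝔪 →+* B ⧸ p := Ideal.quotientMap p (algebraMap R B) hle
  letI : Algebra (R ⧸ 𝔪) (B ⧸ p) := φ.toAlgebra
  haveI : IsDomain (B ⧸ p) := Ideal.Quotient.isDomain p
  haveI : IsDedekindDomain (B ⧸ p) := hded
  have hφ : (algebraMap (R ⧸ 𝔪) (B ⧸ p)).comp (Ideal.Quotient.mk 𝔪) =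
      (Ideal.Quotient.mk p).comp (algebraMap R B) := Ideal.quotientMap_comp_mk hle
  have hmksurj : Function.Surjective (Ideal.Quotient.mk p) := Ideal.Quotient.mk_surjective
  -- evaluation commutes with reduction
  have hev : ∀ a : R[X], aeval (Ideal.Quotient.mk p T) (a.map (Ideal.Quotient.mk 𝔪)) =
      Ideal.Quotient.mk p (aeval T a) := by
    intro a
    rw [Polynomial.aeval_def, Polynomial.eval₂_map, hφ, Polynomial.aeval_def,
      Polynomial.hom_eval₂]
  have hmap0 : ∀ a : R[X], a.map (Ideal.Quotient.mk 𝔪) = 0 ↔ ∀ l, a.coeff l ∈ 𝔪 := by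
    intro a
    constructor
    · intro ha l
      have := congrArg (fun q => Polynomial.coeff q l) ha
      simpa [Polynomial.coeff_map, Ideal.Quotient.eq_zero_iff_mem] using this
    · intro ha
      ext l
      simpa [Polynomial.coeff_map, Ideal.Quotient.eq_zero_iff_mem] using ha l
  have hTinj : Function.Injective
      (aeval (Ideal.Quotient.mk p T) : (R ⧸ 𝔪)[X] → B ⧸ p) := by
    rw [injective_iff_map_eq_zero]
    intro abar habar
    obtain ⟨a, rfl⟩ := Polynomial.map_surjective _ (Ideal.Quotient.mk_surjective (I := 𝔪)) abar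
    rw [hev, Ideal.Quotient.eq_zero_iff_mem] at habar
    exact (hmap0 a).mpr (hT a habar)
  have hrank' : ∀ f : Fin (d + 1) → B ⧸ p, ∃ c : Fin (d + 1) → (R ⧸ 𝔪)[X],
      c ≠ 0 ∧ ∑ i, aeval (Ideal.Quotient.mk p T) (c i) * f i = 0 := by
    intro f
    choose g hg using fun i => hmksurj (f i)
    obtain ⟨c, ⟨i, l, hil⟩, hsum⟩ := hrank g
    refine ⟨fun i => (c i).map (Ideal.Quotient.mk 𝔪), ?_, ?_⟩
    · intro hzero
      have := congrFun hzero i
      exact hil ((hmap0 (c i)).mp this l)
    · have : (∑ i, aeval (Ideal.Quotient.mk p T) ((c i).map (Ideal.Quotient.mk 𝔪)) * f i) =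
          Ideal.Quotient.mk p (∑ i, aeval T (c i) * g i) := by
        rw [map_sum]
        refine Finset.sum_congr rfl fun i _ => ?_
        rw [map_mul, hev, hg]
      rw [this, Ideal.Quotient.eq_zero_iff_mem]
      exact hsum
  have hh0 : h.map (Ideal.Quotient.mk 𝔪) ≠ 0 := by
    obtain ⟨l, hl⟩ := hh
    exact fun hz => hl ((hmap0 h).mp hz l)
  have hdeg : (h.map (Ideal.Quotient.mk 𝔪)).natDegree ≤ m := by
    rw [Polynomial.natDegree_le_iff_coeff_eq_zero]
    intro l hl
    rw [Polynomial.coeff_map, Ideal.Quotient.eq_zero_iff_mem]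
    exact hm l hl
  -- the images of the ideals
  have hcomap : ∀ n ∈ s, Ideal.comap (Ideal.Quotient.mk p) (Ideal.map (Ideal.Quotient.mk p) n)
      = n := by
    intro n hn
    rw [Ideal.comap_map_of_surjective _ hmksurj, ← RingHom.ker_eq_comap_bot, Ideal.mk_ker]
    exact sup_eq_left.mpr (hs n hn).2.1
  have hinj : Set.InjOn (Ideal.map (Ideal.Quotient.mk p)) (s : Set (Ideal B)) := by
    intro n hn n' hn' heq
    rw [← hcomap n hn, ← hcomap n' hn']
    exact congrArg _ heq
  have hs' : ∀ nbar ∈ s.image (Ideal.map (Ideal.Quotient.mk p)), nbar.IsMaximal ∧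
      aeval (Ideal.Quotient.mk p T) (h.map (Ideal.Quotient.mk 𝔪)) ∈ nbar ^ e := by
    intro nbar hnbar
    obtain ⟨n, hn, rfl⟩ := Finset.mem_image.mp hnbar
    obtain ⟨hmax, hpn, hmem⟩ := hs n hn
    refine ⟨?_, ?_⟩
    · rcases Ideal.map_eq_top_or_isMaximal_of_surjective _ hmksurj hmax with htop | hmax'
      · exfalso
        have := hcomap n hn
        rw [htop, Ideal.comap_top] at this
        exact hmax.ne_top this.symm
      · exact hmax'
    · rw [hev, ← Ideal.map_pow]
      have := Ideal.mem_map_of_mem (Ideal.Quotient.mk p) hmem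
      rwa [Ideal.map_sup, Ideal.map_quotient_self, bot_sup_eq] at this
  have hmain := card_mul_le_core (Ideal.Quotient.mk p T) hTinj d hrank'
    (h.map (Ideal.Quotient.mk 𝔪)) hh0 e _ hs'
  rw [Finset.card_image_of_injOn hinj] at hmain
  exact hmain.trans (Nat.mul_le_mul_left d hdeg)

end Quot

end Fermat.Agent.S59.H139.GubCore

end
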