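import Fermat.Agent.S36.H803.R3Spec
import Fermat.Agent.A2.Mod.H142.S2
import Fermat.Agent.A2.Mod.H900.L7
import Fermat.Agent.A2.Mod.H378.L11
import Fermat.Agent.A2.Mod.H13.Frame
import Fermat.Agent.S36.H153.IncQ
import Fermat.Agent.A2.Mod.H31.Deg
import Fermat.Agent.A2.Mod.H372.S3Base

/-!
# S59 / cell (C) LO-SQ / W-COUNT / GUB — the RANK half on `C₀` (helper139)

Level `M * q`, finite chart `B = Bfin`, `p₂ = B ∩ w V₀` (`V₀ = V∞ ∘ W`), `j_q ∈ B`.

* `finrank_jE_one` : `[F_M : E(j)] = ψ(M)`;
* `exists_dep`     : any `ψ(M) + 1` elements of `F_M` are dependent over `E[j]`;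
* `exists_normalise` : Gauss normalisation of a family of polynomials over the fraction field of
  a valuation ring;
* `rank_zero`      : any `ψ(M) + 1` elements of `B` are dependent over `R[j_q]` modulo `p₂`, with
  a coefficient equal to `1` (residue degree one on `C₀`: L5, L7, L11, and `β j = j_q`);
* `transc_zero`    : `j_q` is transcendental modulo `p₂` (L3 for the polar element `W j_q = j_M`).
-/

set_option autoImplicit false
set_option linter.unusedSectionVars false
set_option linter.unusedVariables false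
set_option linter.style.haveILetI false
set_option synthInstance.maxHeartbeats 400000
set_option maxHeartbeats 1600000

noncomputable section

namespace Fermat.Agent.S59.H139.GubRank

open ModularCurve Fermat.Agent.A2.Mod Fermat.Agent.S36.H803 Polynomial IntermediateField

section Level

variable (E : IntermediateField ℚ Qb) (M : ℕ) [NeZero M]

/-- `[F_M : E(j)] = ψ(M)`. -/
theorem finrank_jE_one :
    Module.finrank (adjoin E ({jE E M 1 (one_dvd _)} : Set (FE E M))) (FE E M)
      = dedekindPsi M := by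
  have hchar : ∀ p : ℕ, p.Prime → p ∣ M → ((p : ℕ) : E) ≠ 0 :=
    fun p hp _ => Nat.cast_ne_zero.mpr hp.ne_zero
  have h1 : adjoin E {jE E M 1 (one_dvd _)}
      = (adjoin E {((jE E M 1 (one_dvd _) : FE E M) : LaurentSeries E)}).comap
          (FE E M).val := by
    have h0 : (adjoin E {jE E M 1 (one_dvd _)}).map (FE E M).val
        = adjoin E {((jE E M 1 (one_dvd _) : FE E M) : LaurentSeries E)} := by
      rw [adjoin_map, Set.image_singleton]
      rfl
    rw [← h0, comap_map]
  rw [h1, finrank_comap, fieldRange_val, H31.coe_jE, qExpand_one_apply, H31.FE_eq_fullC]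
  exact H31.relfinrank_j_fullC E M (NeZero.ne M) hchar

open scoped IntermediateField.algebraAdjoinAdjoin in
/-- Any `ψ(M) + 1` elements of `F_M` are linearly dependent over `E[j]`. -/
theorem exists_dep (g : Fin (dedekindPsi M + 1) → FE E M) :
    ∃ a : Fin (dedekindPsi M + 1) → Polynomial E,
      (∃ i, a i ≠ 0) ∧ ∑ i, aeval (jE E M 1 (one_dvd _)) (a i) * g i = 0 := by
  classical
  have hfr := finrank_jE_one E M
  have hpos : 0 < Module.finrank (adjoin E ({jE E M 1 (one_dvd _)} : Set (FE E M)))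
      (FE E M) := by
    rw [hfr]
    exact dedekindPsi_pos_of_ne_zero M (NeZero.ne M)
  haveI : FiniteDimensional (adjoin E ({jE E M 1 (one_dvd _)} : Set (FE E M))) (FE E M) :=
    Module.finite_of_finrank_pos hpos
  have hnli : ¬ LinearIndependent (adjoin E ({jE E M 1 (one_dvd _)} : Set (FE E M))) g := by
    intro hli
    have := hli.fintype_card_le_finrank
    rw [hfr, Fintype.card_fin] at this
    omega
  have hnli' : ¬ LinearIndependent
      (Algebra.adjoin E ({jE E M 1 (one_dvd _)} : Set (FE E M))) g := by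
    rwa [LinearIndependent.iff_fractionRing
      (Algebra.adjoin E ({jE E M 1 (one_dvd _)} : Set (FE E M)))
      (adjoin E ({jE E M 1 (one_dvd _)} : Set (FE E M)))]
  obtain ⟨c, hsum, i₀, hi₀⟩ := Fintype.not_linearIndependent_iff.mp hnli'
  have hc : ∀ i, ∃ a : Polynomial E, aeval (jE E M 1 (one_dvd _)) a = (c i : FE E M) := by
    intro i
    have h1 := (c i).2
    have h2 : (c i : FE E M) ∈ (aeval (R := E) (jE E M 1 (one_dvd _))).range := by
      rw [← Algebra.adjoin_singleton_eq_range_aeval]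
      exact h1
    exact (AlgHom.mem_range _).mp h2
  choose a ha using hc
  refine ⟨a, ⟨i₀, ?_⟩, ?_⟩
  · intro h0
    apply hi₀
    apply Subtype.ext
    rw [← ha i₀, h0, map_zero]
    rfl
  · rw [← hsum]
    refine Finset.sum_congr rfl fun i _ => ?_
    rw [ha i]
    rfl

end Level

section Normalise

/-- **Gauss normalisation.**  A family of polynomials over the fraction field `K` of a valuation
ring `R`, not all zero, can be scaled to a family over `R` with a coefficient equal to `1`. -/
theorem exists_normalise {K : Type*} [Field K] (R : ValuationSubring K) {n : ℕ}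
    (a : Fin n → Polynomial K) (h : ∃ i, a i ≠ 0) :
    ∃ (e₀ : K) (a' : Fin n → Polynomial R), e₀ ≠ 0 ∧
      (∀ i, (a' i).map R.subtype = C e₀⁻¹ * a i) ∧ ∃ i l, (a' i).coeff l = 1 := by
  classical
  obtain ⟨i₁, hi₁⟩ := h
  obtain ⟨D, hD⟩ : ∃ D : ℕ, ∀ i, (a i).natDegree ≤ D :=
    ⟨Finset.univ.sup (fun i => (a i).natDegree),
      fun i => Finset.le_sup (f := fun i => (a i).natDegree) (Finset.mem_univ i)⟩
  obtain ⟨e, he⟩ : ∃ e : Fin n × Fin (D + 1) → K, ∀ t, e t = (a t.1).coeff t.2 := ⟨_, fun _ => rfl⟩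
  obtain ⟨t₀, -, hmax⟩ := Finset.exists_max_image Finset.univ (fun t => R.valuation (e t))
    ⟨(i₁, 0), Finset.mem_univ _⟩
  have ht₁ : e (i₁, ⟨(a i₁).natDegree, Nat.lt_succ_of_le (hD i₁)⟩) ≠ 0 := by
    rw [he]
    show (a i₁).coeff (a i₁).natDegree ≠ 0
    rw [Polynomial.coeff_natDegree]
    exact Polynomial.leadingCoeff_ne_zero.mpr hi₁
  have he₀ : e t₀ ≠ 0 := by
    intro h0
    have := hmax _ (Finset.mem_univ (i₁, ⟨(a i₁).natDegree, Nat.lt_succ_of_le (hD i₁)⟩))
    rw [h0, map_zero] at this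
    exact ht₁ ((_root_.map_eq_zero _).mp (le_antisymm this zero_le))
  have hv₀ : R.valuation (e t₀) ≠ 0 := (_root_.map_ne_zero _).mpr he₀
  have hmem : ∀ i l, (a i).coeff l / e t₀ ∈ R := by
    intro i l
    by_cases hl : l < D + 1
    · have := hmax (i, ⟨l, hl⟩) (Finset.mem_univ _)
      rw [he] at this
      rw [← R.valuation_le_one_iff, map_div₀]
      exact (div_le_one₀ (zero_lt_iff.mpr hv₀)).mpr this
    · have : (a i).coeff l = 0 :=
        Polynomial.coeff_eq_zero_of_natDegree_lt (by have := hD i; omega)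
      rw [this, zero_div]
      exact R.zero_mem
  obtain ⟨a', ha'⟩ : ∃ a' : Fin n → Polynomial R, ∀ i, a' i =
      ∑ l : Fin (D + 1), Polynomial.monomial (l : ℕ) (⟨(a i).coeff l / e t₀, hmem i l⟩ : R) :=
    ⟨_, fun _ => rfl⟩
  have hcoeff : ∀ i l, (a' i).coeff l = (⟨(a i).coeff l / e t₀, hmem i l⟩ : R) := by
    intro i l
    rw [ha', Polynomial.finsetSum_coeff]
    by_cases hl : l < D + 1
    · rw [Finset.sum_eq_single (⟨l, hl⟩ : Fin (D + 1))]
      · rw [Polynomial.coeff_monomial, if_pos rfl]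
      · intro l' _ hne
        rw [Polynomial.coeff_monomial, if_neg]
        intro h
        exact hne (Fin.ext h)
      · intro h
        exact absurd (Finset.mem_univ _) h
    · have h0 : (a i).coeff l = 0 :=
        Polynomial.coeff_eq_zero_of_natDegree_lt (by have := hD i; omega)
      rw [Finset.sum_eq_zero]
      · apply Subtype.ext
        show (0 : K) = (a i).coeff l / e t₀
        rw [h0, zero_div]
      · intro l' _
        rw [Polynomial.coeff_monomial, if_neg]
        intro h
        exact hl (h ▸ l'.2)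
  refine ⟨e t₀, a', he₀, fun i => ?_, t₀.1, t₀.2, ?_⟩
  · ext l
    rw [Polynomial.coeff_map, hcoeff, Polynomial.coeff_C_mul]
    show (a i).coeff l / e t₀ = (e t₀)⁻¹ * (a i).coeff l
    rw [div_eq_inv_mul]
  · rw [hcoeff]
    apply Subtype.ext
    show (a t₀.1).coeff t₀.2 / e t₀ = 1
    rw [← he, div_self he₀]

end Normalise

section Zero

variable (P : ValuationSubring Qb) (E : IntermediateField ℚ Qb) (M q : ℕ) [NeZero M] [NeZero q]
  (w : RE P E)

/-- `InW` is closed under finite sums. -/
theorem inW_sum {N : ℕ} {V : ValuationSubring (FE E N)} {ι : Type*} (s : Finset ι)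
    (f : ι → FE E N) (h : ∀ i ∈ s, InW P E N V w (f i)) : InW P E N V w (∑ i ∈ s, f i) := by
  unfold InW at h ⊢
  rw [Finset.sum_mul]
  exact sum_mem h

/-- **RANK on `C₀`.**  Any `ψ(M) + 1` elements of the finite chart are linearly dependent over
`R[j_q]` modulo `p₂`, with a coefficient equal to `1`. -/
theorem rank_zero (hyp : R3Hyp P E M q w) (p₁ p₂ : Ideal (Bfin P E M q))
    (hcomp : IsComponents P E M q w p₁ p₂) (jq : Bfin P E M q)
    (hjq : (jq : FE E (M * q)) = jE E (M * q) q (dvd_mul_left q M))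
    (f : Fin (dedekindPsi M + 1) → Bfin P E M q) :
    ∃ c : Fin (dedekindPsi M + 1) → Polynomial (RE P E),
      (∃ i l, (c i).coeff l = 1) ∧ ∑ i, aeval jq (c i) * f i ∈ p₂ := by
  classical
  have hS := hyp.setting
  haveI := hS.dvr
  obtain ⟨V, W, hV, hW, hc₁, hc₂⟩ := hcomp
  obtain ⟨VM, hVM⟩ := hyp.vinfM
  have hN : M * q ≠ 0 := Nat.mul_ne_zero hS.M_ne_zero hS.q_prime.ne_zero
  haveI : NeZero (M * q) := ⟨hN⟩
  have hL2 := H553.vinfBasic P E w (M * q) hN hS.dvr hS.unif V hV
  have hWM := H751.isFricke_frickeE E M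
  have hL5 := H751.frickeCompat E M q (H751.frickeE E M) W hWM hW
  have hL7 := H900.frickeStable P E M q w
  have hL11 := H378.resInf P E M q w
  have hover := H13.isOver_comap hV W
  have hWjq : W (jE E (M * q) q (dvd_mul_left q M)) = jE E (M * q) M (dvd_mul_right M q) :=
    hW.1 q M (dvd_mul_left q M) (dvd_mul_right M q) (mul_comm q M)
  have hWj : W (jE E (M * q) 1 (one_dvd _)) = jE E (M * q) (M * q) dvd_rfl :=
    hW.1 1 (M * q) (one_dvd _) dvd_rfl (one_mul _)
  have hxV₀ : xE E M q ∈ V.comap (W : FE E (M * q) →+* FE E (M * q)) := by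
    rw [ValuationSubring.mem_comap]
    show W (xE E M q) ∈ V
    rw [xE, map_mul, hWj, hWjq]
    exact V.mul_mem _ _ (hL2.2.2 (M * q) dvd_rfl).1 (hL2.2.2 M (dvd_mul_right M q)).1
  have hBV₀ : ∀ b : Bfin P E M q,
      (b : FE E (M * q)) ∈ V.comap (W : FE E (M * q) →+* FE E (M * q)) := fun b =>
    H372.mem_of_isIntegralElem _ (algebraMap (RE P E) (FE E (M * q))) (xE E M q)
      (fun r => hover.mem r) hxV₀ (H372.mem_chartAlg_iff.mp b.2)
  -- residue degree one on `C₀`
  have hres : ∀ f ∈ V.comap (W : FE E (M * q) →+* FE E (M * q)), ∃ g ∈ VM,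
      InW P E (M * q) (V.comap (W : FE E (M * q) →+* FE E (M * q))) w (f - βE E M q g) := by
    intro f hf
    rw [ValuationSubring.mem_comap] at hf
    obtain ⟨g', hg', h⟩ := hL11 hS VM V hVM hV (W f) hf
    refine ⟨H751.frickeE E M g', hL7 hS VM (H751.frickeE E M) hVM hWM g' hg', ?_⟩
    rw [H142.inW_comap_iff, map_sub, (hL5 _).2, hWM.2]
    exact h
  choose g hgV hg using fun i => hres (f i : FE E (M * q)) (hBV₀ (f i))
  obtain ⟨a, ha0, hasum⟩ := exists_dep E M g
  obtain ⟨e₀, a', he₀, hmap, hone⟩ := exists_normalise (RE P E) a ha0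
  refine ⟨a', hone, ?_⟩
  rw [hc₂]
  have hβj : βE E M q (jE E M 1 (one_dvd _)) = jE E (M * q) q (dvd_mul_left q M) := by
    rw [H751.beta_jE E M q 1 (one_dvd M)]
    exact H751.jE_congr E (M * q) (mul_one q) _ _
  have hev : ∀ i, ((aeval jq (a' i) : Bfin P E M q) : FE E (M * q)) =
      algebraMap E (FE E (M * q)) e₀⁻¹ *
        βE E M q (aeval (jE E M 1 (one_dvd _)) (a i)) := by
    intro i
    rw [Polynomial.aeval_subalgebra_coe, hjq, ← Polynomial.aeval_algHom_apply, hβj]
    have h1 : aeval (jE E (M * q) q (dvd_mul_left q M)) (a' i)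
        = aeval (jE E (M * q) q (dvd_mul_left q M)) ((a' i).map (RE P E).subtype) := by
      rw [Polynomial.aeval_def, Polynomial.aeval_def, Polynomial.eval₂_map]
      rfl
    rw [h1, hmap, map_mul, Polynomial.aeval_C]
  have h0 : ∑ i, ((aeval jq (a' i) : Bfin P E M q) : FE E (M * q)) * βE E M q (g i) = 0 := by
    calc ∑ i, ((aeval jq (a' i) : Bfin P E M q) : FE E (M * q)) * βE E M q (g i)
        = algebraMap E (FE E (M * q)) e₀⁻¹ *
            βE E M q (∑ i, aeval (jE E M 1 (one_dvd _)) (a i) * g i) := by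
          rw [map_sum, Finset.mul_sum]
          refine Finset.sum_congr rfl fun i _ => ?_
          rw [hev i, map_mul, mul_assoc]
      _ = 0 := by rw [hasum, map_zero, mul_zero]
  have hcoe : ((∑ i, aeval jq (a' i) * f i : Bfin P E M q) : FE E (M * q)) =
      ∑ i, ((f i : FE E (M * q)) - βE E M q (g i)) *
        ((aeval jq (a' i) : Bfin P E M q) : FE E (M * q)) := by
    have h2 : ∑ i, ((f i : FE E (M * q)) - βE E M q (g i)) *
        ((aeval jq (a' i) : Bfin P E M q) : FE E (M * q))
        = ∑ i, ((aeval jq (a' i) : Bfin P E M q) : FE E (M * q)) * (f i : FE E (M * q))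
          - ∑ i, ((aeval jq (a' i) : Bfin P E M q) : FE E (M * q)) * βE E M q (g i) := by
      rw [← Finset.sum_sub_distrib]
      refine Finset.sum_congr rfl fun i _ => ?_
      ring
    rw [h2, h0, sub_zero]
    push_cast
    rfl
  rw [hcoe]
  refine inW_sum P E w _ _ fun i _ => ?_
  exact H142.inW_mul_right (hg i) (hBV₀ _)

/-- **Transcendence of `j_q` on `C₀`.**  A polynomial over `R` whose value at `j_q` lies in `p₂`
vanishes modulo the maximal ideal. -/
theorem transc_zero (hyp : R3Hyp P E M q w) (p₁ p₂ : Ideal (Bfin P E M q))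
    (hcomp : IsComponents P E M q w p₁ p₂) (jq : Bfin P E M q)
    (hjq : (jq : FE E (M * q)) = jE E (M * q) q (dvd_mul_left q M))
    (a : Polynomial (RE P E)) (ha : aeval jq a ∈ p₂) :
    a.map (IsLocalRing.residue (RE P E)) = 0 := by
  have hS := hyp.setting
  haveI := hS.dvr
  obtain ⟨V, W, hV, hW, hc₁, hc₂⟩ := hcomp
  have hN : M * q ≠ 0 := Nat.mul_ne_zero hS.M_ne_zero hS.q_prime.ne_zero
  haveI : NeZero (M * q) := ⟨hN⟩
  have hL2 := H553.vinfBasic P E w (M * q) hN hS.dvr hS.unif V hV
  have hU0 := H142.isUnif_comap W hL2.1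
  have hWjq : W (jE E (M * q) q (dvd_mul_left q M)) = jE E (M * q) M (dvd_mul_right M q) :=
    hW.1 q M (dvd_mul_left q M) (dvd_mul_right M q) (mul_comm q M)
  have hpolar : H13.IsPolar E (M * q) (W (jE E (M * q) q (dvd_mul_left q M))) M := by
    rw [hWjq]
    exact H13.isPolar_jE M (dvd_mul_right M q)
  have htr : Transcendental E (W (jE E (M * q) q (dvd_mul_left q M))) := by
    rw [hWjq]
    exact Fermat.Agent.S36.H153.transcendental_jE' (M * q) M (dvd_mul_right M q)
  have hG : Fermat.Agent.A2.H489.IsGaussOver (RE P E)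
      (V.comap (W : FE E (M * q) →+* FE E (M * q))) (jE E (M * q) q (dvd_mul_left q M)) :=
    H13.isGaussOver_comap hV W
      (H13.isGaussOver_of_polar hV hS.unif hN (Nat.pos_of_ne_zero hS.M_ne_zero) hpolar
        (H13.transcendental_RE htr))
  apply hG.prim a
  rw [← H13.inW_iff_mem_nonunits hU0]
  have := (hc₂ _).mp ha
  rwa [Polynomial.aeval_subalgebra_coe, hjq] at this

end Zero

end Fermat.Agent.S59.H139.GubRank

end
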