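import Fermat.Agent.S59.H139.GubCore
import Fermat.Agent.S59.H139.GubRank
import Fermat.Agent.S59.H807.GubSpec
import Fermat.Agent.S36.H438.UnitRed

/-!
# S59 / cell (C) LO-SQ / W-COUNT / GUB — the FIBRE bound on `C₀` and `ORD12 ⟹ GUB4` (helper139)

* `fibre_le` : `D ≡ H(j_q) mod p₂`, `H ∈ R[X]` of degree `≤ m` modulo `w` and nonzero modulo `w`;
  if `D ∈ p₂ + n ^ e` for every `n` in a finite set `s` of maximal ideals over `p₂`, then
  `#s · e ≤ ψ(M) · m`  (abstract bound `GubCore.card_mul_le_quot` + `GubRank.rank_zero`,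
  `GubRank.transc_zero`, `B ⧸ p₂` Dedekind).
* `gub4_of_ord12 : H807.Ord12Statement → H807.Gub4Statement` : the node count from ORD12 alone
  (`D = q¹² Δ(t^q)/Δ(t) ≡ H_q(j_q) mod p₂`, `H_q` the Hasse polynomial, monic of degree `q - 1`;
  `H438.dE_sub_hasse_mem_cut`).  No degree-of-divisor input (DEG0) is used.
-/

set_option autoImplicit false
set_option linter.unusedSectionVars false
set_option linter.unusedVariables false
set_option linter.style.haveILetI false
set_option synthInstance.maxHeartbeats 400000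
set_option maxHeartbeats 1600000

noncomputable section

namespace Fermat.Agent.S59.H139.GubFibre

open ModularCurve Fermat.Agent.A2.Mod Fermat.Agent.S36.H803 Polynomial

variable (P : ValuationSubring Qb) (E : IntermediateField ℚ Qb) (M q : ℕ) [NeZero M] [NeZero q]
  (w : RE P E)

/-- **FIBRE bound on `C₀`.** -/
theorem fibre_le (hyp : R3Hyp P E M q w) (p₁ p₂ : Ideal (Bfin P E M q))
    (hcomp : IsComponents P E M q w p₁ p₂) (jq : Bfin P E M q)
    (hjq : (jq : FE E (M * q)) = jE E (M * q) q (dvd_mul_left q M))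
    (D : Bfin P E M q) (H : Polynomial (RE P E)) (m e : ℕ)
    (hH : ∃ l, ¬ w ∣ H.coeff l) (hm : ∀ l, m < l → w ∣ H.coeff l)
    (hD : D - aeval jq H ∈ p₂) (s : Finset (Ideal (Bfin P E M q)))
    (hs : ∀ n ∈ s, n.IsMaximal ∧ p₂ ≤ n ∧ D ∈ p₂ ⊔ n ^ e) :
    s.card * e ≤ dedekindPsi M * m := by
  classical
  have hS := hyp.setting
  haveI := hS.dvr
  obtain ⟨c, hc1, hc2⟩ :=
    Fermat.Agent.S59.H807.exists_ssChart_of_components807 P E M q w hyp p₁ p₂ hcomp
  subst hc1 hc2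
  have hB := Fermat.Agent.S59.H807.chartCtx_bfin807 P E M q w hyp
  obtain ⟨hnoeth, hic, hfrac⟩ := Fermat.Agent.A2.Alg.H34.chart_instances' w (xE E M q)
    (Bfin P E M q) hB
  haveI := c.prime₂
  haveI : IsIntegrallyClosed (Bfin P E M q ⧸ c.p₂) := c.normal₂
  have hw : algebraMap (RE P E) (Bfin P E M q) w ∈ c.p₁ ⊓ c.p₂ := by
    rw [c.inf_eq]
    exact Ideal.mem_span_singleton_self _
  have hded : IsDedekindDomain (Bfin P E M q ⧸ c.p₂) :=
    Fermat.Agent.A2.Alg.H609.isDedekindDomain_quotient_chart w (xE E M q) (Bfin P E M q) hB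
      c.p₂ hw.2
  have hmem : ∀ r : RE P E, r ∈ IsLocalRing.maximalIdeal (RE P E) ↔ w ∣ r := by
    intro r
    rw [hS.unif.maximalIdeal_eq, Ideal.mem_span_singleton]
  have hle : IsLocalRing.maximalIdeal (RE P E) ≤
      c.p₂.comap (algebraMap (RE P E) (Bfin P E M q)) := by
    intro r hr
    obtain ⟨r', rfl⟩ := (hmem r).mp hr
    rw [Ideal.mem_comap, map_mul]
    exact c.p₂.mul_mem_right _ hw.2
  have hT : ∀ a : Polynomial (RE P E), aeval jq a ∈ c.p₂ →
      ∀ l, a.coeff l ∈ IsLocalRing.maximalIdeal (RE P E) := by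
    intro a ha l
    have h0 := GubRank.transc_zero P E M q w hyp c.p₁ c.p₂ hcomp jq hjq a ha
    have h1 := congrArg (fun p => Polynomial.coeff p l) h0
    simp only [Polynomial.coeff_map, Polynomial.coeff_zero] at h1
    exact (IsLocalRing.residue_eq_zero_iff _).mp h1
  have hrank : ∀ f : Fin (dedekindPsi M + 1) → Bfin P E M q,
      ∃ c' : Fin (dedekindPsi M + 1) → Polynomial (RE P E),
        (∃ i l, (c' i).coeff l ∉ IsLocalRing.maximalIdeal (RE P E)) ∧
          ∑ i, aeval jq (c' i) * f i ∈ c.p₂ := by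
    intro f
    obtain ⟨c', ⟨i, l, hil⟩, hsum⟩ :=
      GubRank.rank_zero P E M q w hyp c.p₁ c.p₂ hcomp jq hjq f
    refine ⟨c', ⟨i, l, ?_⟩, hsum⟩
    rw [hil]
    exact fun h1 => (IsLocalRing.maximalIdeal.isMaximal (RE P E)).ne_top
      ((Ideal.eq_top_iff_one _).mpr h1)
  have hs' : ∀ n ∈ s, n.IsMaximal ∧ c.p₂ ≤ n ∧ aeval jq H ∈ c.p₂ ⊔ n ^ e := by
    intro n hn
    obtain ⟨h1, h2, h3⟩ := hs n hn
    refine ⟨h1, h2, ?_⟩
    have : aeval jq H = D - (D - aeval jq H) := by ring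
    rw [this]
    exact sub_mem h3 (Ideal.mem_sup_left hD)
  exact GubCore.card_mul_le_quot (IsLocalRing.maximalIdeal (RE P E)) c.p₂ hle hded jq hT
    (dedekindPsi M) hrank H
    (by obtain ⟨l, hl⟩ := hH; exact ⟨l, fun h => hl ((hmem _).mp h)⟩) m
    (fun l hl => (hmem _).mpr (hm l hl)) e s hs'

/-- **`ORD12 ⟹ GUB4`** (no DEG0). -/
theorem gub4_of_ord12 (hORD : Fermat.Agent.S59.H807.Ord12Statement P E M q w) :
    Fermat.Agent.S59.H807.Gub4Statement P E M q w := by
  intro hyp h4 h5 p₁ p₂ hcomp s hs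
  classical
  have hS := hyp.setting
  have hq := hS.q_prime
  haveI := hS.dvr
  obtain ⟨jq, hjq⟩ : ∃ jq : Bfin P E M q,
      (jq : FE E (M * q)) = jE E (M * q) q (dvd_mul_left q M) :=
    ⟨⟨_, (Fermat.Agent.S36.H438.jE_mem_chartAlg P E q M hq).2⟩, rfl⟩
  obtain ⟨D, hDdef⟩ : ∃ D : Bfin P E M q,
      D = (⟨Fermat.Agent.S36.H438.dE E (M * q) q (dvd_mul_left q M),
        Fermat.Agent.S36.H438.dE_mem_chartAlg P E M q hq⟩ : Bfin P E M q) := ⟨_, rfl⟩
  have hD : IsD E M q (D : FE E (M * q)) := by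
    rw [hDdef]
    exact Fermat.Agent.S36.H438.coe_dE E (M * q) q (dvd_mul_left q M)
  obtain ⟨H, hH⟩ : ∃ H : Polynomial (RE P E),
      H = (Fermat.Agent.S36.H438.hassePoly q hq).map (algebraMap ℤ (RE P E)) := ⟨_, rfl⟩
  have hmonic : H.Monic := by
    rw [hH]
    exact (Fermat.Agent.S36.H438.hassePoly_monic q hq).map _
  have hdeg : H.natDegree = q - 1 := by
    rw [hH, (Fermat.Agent.S36.H438.hassePoly_monic q hq).natDegree_map,
      Fermat.Agent.S36.H438.hassePoly_natDegree]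
  have hcomp' := hcomp
  obtain ⟨V, W, hV, hW, hc₁, hc₂⟩ := hcomp
  have hcut := Fermat.Agent.S36.H438.dE_sub_hasse_mem_cut P E q M hq w
    (Fermat.Agent.S36.H438.unif_dvd_natCast P E hS) W hV hW p₂ hc₂
  have hDH : D - aeval jq H ∈ p₂ := by
    have e : D - aeval jq H =
        (⟨Fermat.Agent.S36.H438.dE E (M * q) q (dvd_mul_left q M),
            Fermat.Agent.S36.H438.dE_mem_chartAlg P E M q hq⟩
          - ⟨Polynomial.aeval (jE E (M * q) q (dvd_mul_left q M))
              (Fermat.Agent.S36.H438.hassePoly q hq),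
              Fermat.Agent.S36.H438.aeval_jqE_mem_chartAlg P E q M hq _⟩ :
            chartAlg P E (M * q) (xE E M q)) := by
      apply Subtype.ext
      rw [hDdef]
      show ((⟨_, _⟩ : Bfin P E M q) : FE E (M * q)) - ((aeval jq H : Bfin P E M q) : FE E (M * q))
        = _
      rw [Polynomial.aeval_subalgebra_coe, hjq, hH, Polynomial.aeval_map_algebraMap]
      rfl
    rw [e]
    exact hcut
  have hs12 : ∀ n ∈ s, n.IsMaximal ∧ p₂ ≤ n ∧ D ∈ p₂ ⊔ n ^ 12 := fun n hn =>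
    ⟨(hs n hn).1, (hs n hn).2.2, hORD hyp h4 h5 D hD p₁ p₂ hcomp' n (hs n hn)⟩
  have hmain := fibre_le P E M q w hyp p₁ p₂ hcomp' jq hjq D H (q - 1) 12
    ⟨q - 1, by
      rw [← hdeg, Polynomial.coeff_natDegree, hmonic.leadingCoeff]
      exact fun h => hS.unif.not_isUnit (isUnit_of_dvd_one h)⟩
    (fun l hl => by
      rw [Polynomial.coeff_eq_zero_of_natDegree_lt (by rw [hdeg]; exact hl)]
      exact dvd_zero _)
    hDH s hs12
  rw [mul_comm 12, mul_comm (q - 1)]
  exact hmain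

end Fermat.Agent.S59.H139.GubFibre

end
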